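import Mathlib
import Fermat.Agent.LT.T5.Spec
import Fermat.Agent.LT.T5.H379.TraceMain

/-!
# Row LT, tower T5, leaf T5.01 `LeafAbstractTrace`, Spec v4 form (helper800), OFF-MAIN

`leafAbstractTrace800 : T5.LeafAbstractTrace K` for every number field `K`, against
`Fermat/Agent/LT/T5/Spec.lean` v4 (architect helper32@eb7e4c138, sha256 f2d97e70548f,
byte-identical copy).  In v4 the sequence `e` is ORTHOGONAL and every `e i` has norm `1` OR
vanishes identically (zero vectors allowed).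

The measure-theoretic dictionary is the one of helper379 (`LT/T5/H379/{HilbAbs,TraceAbs,
TraceMain}.lean`, byte-identical copies, Mathlib only); the four statements which used
orthonormality are re-proved here with zero vectors allowed:

* `parseval_expand800` : Parseval for `g` in an orthogonal sequence of vectors of norm `1` or `0`
  gives `⟪w, g⟫ = ∑ ⟪w, e i⟫ ⟪e i, g⟫`;
* `expand800`, `hasSum_phi800`, `abstract_trace800` : the abstract trace identity on a finite
  measure space;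
* `leafAbstractTrace800` : the leaf.  Also `leafAbstractTraceStrict800` (the v3 statement), as a
  corollary.
-/

set_option autoImplicit false

open MeasureTheory ComplexConjugate
open scoped ENNReal InnerProductSpace

noncomputable section

namespace Fermat.Agent.LT.T5.H800

open Fermat.Agent.LT.T5.H379

/-! ## Hilbert space -/

section Hilbert

variable {E : Type*} [NormedAddCommGroup E] [InnerProductSpace ℂ E] [CompleteSpace E]

/-- **Parseval gives the expansion**, zero vectors allowed. -/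
theorem parseval_expand800 {e : ℕ → E} {g : E}
    (horth0 : ∀ i j, i ≠ j → ⟪e i, e j⟫_ℂ = 0)
    (hnorm0 : ∀ i, ⟪e i, e i⟫_ℂ = 1 ∨ e i = 0)
    (hpar : HasSum (fun i => ‖⟪e i, g⟫_ℂ‖ ^ 2) (‖g‖ ^ 2)) (w : E) :
    HasSum (fun i => ⟪w, e i⟫_ℂ * ⟪e i, g⟫_ℂ) ⟪w, g⟫_ℂ := by
  set φ : ℕ → E := fun i => ⟪e i, g⟫_ℂ • e i with hφ
  have horth : ∀ i j, i ≠ j → ⟪φ i, φ j⟫_ℂ = 0 := by
    intro i j hij
    simp only [hφ, inner_smul_left, inner_smul_right, horth0 i j hij, mul_zero]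
  have hself : ∀ i, ⟪φ i, φ i⟫_ℂ = conj ⟪e i, g⟫_ℂ * ⟪e i, g⟫_ℂ := by
    intro i
    rcases hnorm0 i with h1 | h0
    · simp only [hφ, inner_smul_left, inner_smul_right, h1, mul_one]
      ring
    · simp only [hφ, h0, inner_zero_left, smul_zero, mul_zero]
  have hproj : ∀ i, ⟪φ i, g⟫_ℂ = ⟪φ i, φ i⟫_ℂ := by
    intro i
    rw [hself i]
    simp only [hφ, inner_smul_left]
  have hsum : Summable φ := orth_summable379 horth hproj
  obtain ⟨g', hg'⟩ := hsum
  have hrem := orth_rem379 hg' horth hproj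
  have hn := orth_norm_sq379 hg' horth
  have hnorm : ∀ i, ‖φ i‖ ^ 2 = ‖⟪e i, g⟫_ℂ‖ ^ 2 := by
    intro i
    rcases hnorm0 i with h1' | h0
    · have h1 : ‖e i‖ = 1 := by
        have := h1'
        rw [inner_self_eq_norm_sq_to_K] at this
        have h2 : (‖e i‖ : ℂ) ^ 2 = 1 := this
        have h3 : ‖e i‖ ^ 2 = 1 := by exact_mod_cast h2
        exact (pow_eq_one_iff_of_nonneg (norm_nonneg _) two_ne_zero).1 h3
      simp only [hφ, norm_smul, h1, mul_one]
    · simp only [hφ, h0, inner_zero_left, smul_zero, norm_zero]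
  have hn' : HasSum (fun i => ‖⟪e i, g⟫_ℂ‖ ^ 2) (‖g'‖ ^ 2) := by
    have : (fun i => ‖φ i‖ ^ 2) = fun i => ‖⟪e i, g⟫_ℂ‖ ^ 2 := funext hnorm
    rw [← this]; exact hn
  have heq : ‖g'‖ ^ 2 = ‖g‖ ^ 2 := hn'.unique hpar
  have hpyth : ‖g' + (g - g')‖ * ‖g' + (g - g')‖ = ‖g'‖ * ‖g'‖ + ‖g - g'‖ * ‖g - g'‖ :=
    norm_add_sq_eq_norm_sq_add_norm_sq_of_inner_eq_zero (𝕜 := ℂ) g' (g - g') hrem
  have hz : ‖g - g'‖ = 0 := by
    have h1 : g' + (g - g') = g := by abel
    rw [h1] at hpyth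
    have h2 : ‖g - g'‖ * ‖g - g'‖ = 0 := by nlinarith [heq]
    exact mul_self_eq_zero.1 h2
  have hgg : g = g' := by
    have := norm_eq_zero.1 hz
    exact sub_eq_zero.1 this
  rw [← hgg] at hg'
  have h3 := hasSum_inner_right379 hg' w
  have h4 : (fun i => ⟪w, φ i⟫_ℂ) = fun i => ⟪w, e i⟫_ℂ * ⟪e i, g⟫_ℂ := by
    funext i
    simp only [hφ, inner_smul_right]
    ring
  rw [h4] at h3
  exact h3

end Hilbert

/-! ## The abstract trace identity, zero vectors allowed -/

section Trace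

variable {X : Type*} [MeasurableSpace X] {ν : Measure X} [IsFiniteMeasure ν]
  {K₁ K₂ : X → X → ℂ} {e : ℕ → X → ℂ}

omit [IsFiniteMeasure ν] in
/-- A function which vanishes identically is `0` in `L²`. -/
theorem toLp_eq_zero800 {f : X → ℂ} (hf : MemLp f 2 ν) (h0 : ∀ x, f x = 0) :
    hf.toLp f = 0 := by
  have h1 : f = 0 := funext h0
  subst h1
  exact MemLp.toLp_zero hf

omit [IsFiniteMeasure ν] in
/-- The coefficient function of a vanishing `e i` vanishes. -/
theorem cfun_eq_zero800 {i : ℕ} (h0 : ∀ x, e i x = 0) (z : X) : cfun379 ν K₁ e i z = 0 := by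
  unfold cfun379 kop379
  simp only [h0, map_zero, mul_zero, integral_zero]

/-- Parseval for the range of `K₁` gives the expansion of the bilinear form of `K₁`. -/
theorem expand800 (hK₁ : MemLp (fun p : X × X => K₁ p.1 p.2) 2 (ν.prod ν))
    (he : ∀ i, MemLp (e i) 2 ν)
    (horth : ∀ i j, i ≠ j → ∫ x, e i x * conj (e j x) ∂ν = 0)
    (hnorm : ∀ i, ∫ x, e i x * conj (e i x) ∂ν = 1 ∨ ∀ x, e i x = 0)
    (hpar : ∀ f : X → ℂ, MemLp f 2 ν →
      HasSum (fun i => ‖∫ x, kop379 ν K₁ f x * conj (e i x) ∂ν‖ ^ 2)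
        (∫ x, kop379 ν K₁ f x * conj (kop379 ν K₁ f x) ∂ν).re)
    {u v : X → ℂ} (hu : MemLp u 2 ν) (hv : MemLp v 2 ν) :
    HasSum (fun i => (∫ x, kop379 ν K₁ u x * conj (e i x) ∂ν) * ∫ x, e i x * v x ∂ν)
      (∫ x, kop379 ν K₁ u x * v x ∂ν) := by
  have hG := memLp_kop379 hK₁ hu
  have hW := memLp_conj379 hv
  have horth' : ∀ i j, i ≠ j → ⟪(he i).toLp (e i), (he j).toLp (e j)⟫_ℂ = 0 := by
    intro i j hij
    rw [inner_toLp379, horth j i (Ne.symm hij)]
  have hnorm' : ∀ i, ⟪(he i).toLp (e i), (he i).toLp (e i)⟫_ℂ = 1 ∨ (he i).toLp (e i) = 0 := by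
    intro i
    rcases hnorm i with h1 | h0
    · left
      rw [inner_toLp379, h1]
    · right
      exact toLp_eq_zero800 (he i) h0
  have hpar' : HasSum (fun i => ‖⟪(he i).toLp (e i), hG.toLp _⟫_ℂ‖ ^ 2)
      (‖hG.toLp (kop379 ν K₁ u)‖ ^ 2) := by
    have h1 := hpar u hu
    have e1 : (fun i => ‖⟪(he i).toLp (e i), hG.toLp _⟫_ℂ‖ ^ 2)
        = fun i => ‖∫ x, kop379 ν K₁ u x * conj (e i x) ∂ν‖ ^ 2 := by
      funext i
      rw [inner_toLp379]
    have e2 : ‖hG.toLp (kop379 ν K₁ u)‖ ^ 2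
        = (∫ x, kop379 ν K₁ u x * conj (kop379 ν K₁ u x) ∂ν).re := by
      rw [← inner_toLp379 hG hG]
      exact (inner_self_eq_norm_sq (𝕜 := ℂ) _).symm
    rw [e1, e2]
    exact h1
  have h := parseval_expand800 horth' hnorm' hpar' (hW.toLp _)
  have e3 : (fun i => ⟪hW.toLp _, (he i).toLp (e i)⟫_ℂ * ⟪(he i).toLp (e i), hG.toLp _⟫_ℂ)
      = fun i => (∫ x, kop379 ν K₁ u x * conj (e i x) ∂ν) * ∫ x, e i x * v x ∂ν := by
    funext i
    rw [inner_toLp379, inner_toLp379, mul_comm]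
    simp only [Complex.conj_conj]
  have e4 : ⟪hW.toLp _, hG.toLp _⟫_ℂ = ∫ x, kop379 ν K₁ u x * v x ∂ν := by
    rw [inner_toLp379]
    simp only [Complex.conj_conj]
  rw [e3, e4] at h
  exact h

/-- **The kernel is the sum of the `Φᵢ` in `L²` of the product**, zero vectors allowed. -/
theorem hasSum_phi800 (hK₁ : MemLp (fun p : X × X => K₁ p.1 p.2) 2 (ν.prod ν))
    (he : ∀ i, MemLp (e i) 2 ν)
    (horth0 : ∀ i j, i ≠ j → ∫ x, e i x * conj (e j x) ∂ν = 0)
    (hnorm0 : ∀ i, ∫ x, e i x * conj (e i x) ∂ν = 1 ∨ ∀ x, e i x = 0)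
    (hpar : ∀ f : X → ℂ, MemLp f 2 ν →
      HasSum (fun i => ‖∫ x, kop379 ν K₁ f x * conj (e i x) ∂ν‖ ^ 2)
        (∫ x, kop379 ν K₁ f x * conj (kop379 ν K₁ f x) ∂ν).re) :
    HasSum (fun i => (memLp_phi379 hK₁ he i).toLp _)
      ((memLp_transpose379 hK₁).toLp (fun p : X × X => K₁ p.2 p.1)) := by
  have horth : ∀ i j, i ≠ j →
      ⟪(memLp_phi379 hK₁ he i).toLp _, (memLp_phi379 hK₁ he j).toLp _⟫_ℂ = 0 := by
    intro i j hij
    rw [inner_phi_phi379 hK₁ he i j, horth0 j i (Ne.symm hij), mul_zero]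
  have hproj : ∀ i,
      ⟪(memLp_phi379 hK₁ he i).toLp _, (memLp_transpose379 hK₁).toLp _⟫_ℂ
        = ⟪(memLp_phi379 hK₁ he i).toLp _, (memLp_phi379 hK₁ he i).toLp _⟫_ℂ := by
    intro i
    rw [inner_phi_y379 hK₁ he i, inner_phi_phi379 hK₁ he i i]
    rcases hnorm0 i with h1 | h0
    · rw [h1, mul_one]
    · have hc : (fun z => cfun379 ν K₁ e i z * conj (cfun379 ν K₁ e i z)) = fun _ => 0 := by
        funext z
        rw [cfun_eq_zero800 h0 z, zero_mul]
      rw [hc, integral_zero, zero_mul]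
  obtain ⟨g', hg'⟩ := orth_summable379 horth hproj
  have hzero : (memLp_transpose379 hK₁).toLp (fun p : X × X => K₁ p.2 p.1) - g' = 0 := by
    apply eq_zero_of_rect379
    intro S T hS hT
    rw [← L2.inner_indicatorConstLp_one (𝕜 := ℂ) (hS.prod hT) (measure_ne_top _ _)]
    have hu : MemLp (S.indicator (fun _ => (1 : ℂ))) 2 ν :=
      memLp_indicator_const 2 hS 1 (Or.inr (measure_ne_top _ _))
    have hv : MemLp (T.indicator (fun _ => (1 : ℂ))) 2 ν :=
      memLp_indicator_const 2 hT 1 (Or.inr (measure_ne_top _ _))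
    have hind : indicatorConstLp 2 (hS.prod hT) (measure_ne_top (ν.prod ν) _) (1 : ℂ)
        = (memLp_test379 hu hv).toLp _ := by
      rw [indicatorConstLp]
      apply MemLp.toLp_congr
      filter_upwards with p
      by_cases h1 : p.1 ∈ S <;> by_cases h2 : p.2 ∈ T <;> simp [Set.indicator, h1, h2]
    rw [hind, inner_sub_right, inner_test_y379 hK₁ hu hv]
    have h3 := hasSum_inner_right379 hg' ((memLp_test379 hu hv).toLp _)
    have e5 : (fun i => ⟪(memLp_test379 hu hv).toLp _, (memLp_phi379 hK₁ he i).toLp _⟫_ℂ)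
        = fun i => (∫ x, kop379 ν K₁ (S.indicator (fun _ => (1 : ℂ))) x * conj (e i x) ∂ν)
            * ∫ x, e i x * T.indicator (fun _ => (1 : ℂ)) x ∂ν :=
      funext fun i => inner_test_phi379 hK₁ he i hu hv
    rw [e5] at h3
    rw [h3.unique (expand800 hK₁ he horth0 hnorm0 hpar hu hv), sub_self]
  rw [sub_eq_zero] at hzero
  rw [hzero]
  exact hg'

/-- **T5.01, abstract form, zero vectors allowed.**  Trace of a product of two Hilbert–Schmidt
kernel operators, computed in an orthogonal sequence of functions of norm `1` or identically `0`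
for which the range of the first operator satisfies Parseval's identity. -/
theorem abstract_trace800 (K₁ K₂ : X → X → ℂ) (e : ℕ → X → ℂ)
    (hK₁ : MemLp (fun p : X × X => K₁ p.1 p.2) 2 (ν.prod ν))
    (hK₂ : MemLp (fun p : X × X => K₂ p.1 p.2) 2 (ν.prod ν))
    (he : ∀ i, MemLp (e i) 2 ν)
    (horth : ∀ i j, i ≠ j → ∫ x, e i x * conj (e j x) ∂ν = 0)
    (hnorm : ∀ i, ∫ x, e i x * conj (e i x) ∂ν = 1 ∨ ∀ x, e i x = 0)
    (hpar : ∀ f : X → ℂ, MemLp f 2 ν →
      HasSum (fun i => ‖∫ x, kop379 ν K₁ f x * conj (e i x) ∂ν‖ ^ 2)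
        (∫ x, kop379 ν K₁ f x * conj (kop379 ν K₁ f x) ∂ν).re) :
    Summable (fun i => ∫ x, kop379 ν K₁ (kop379 ν K₂ (e i)) x * conj (e i x) ∂ν) ∧
      Integrable (fun x => ∫ z, K₁ x z * K₂ z x ∂ν) ν ∧
      ∑' i, ∫ x, kop379 ν K₁ (kop379 ν K₂ (e i)) x * conj (e i x) ∂ν
        = ∫ x, ∫ z, K₁ x z * K₂ z x ∂ν ∂ν := by
  have hy := hasSum_phi800 hK₁ he horth hnorm hpar
  have hL := memLp_conj379 hK₂
  have h1 := hasSum_inner_right379 hy (hL.toLp _)
  have e1 : (fun i => ⟪hL.toLp _, (memLp_phi379 hK₁ he i).toLp _⟫_ℂ)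
      = fun i => ∫ x, kop379 ν K₁ (kop379 ν K₂ (e i)) x * conj (e i x) ∂ν :=
    funext fun i => (term_eq379 hK₁ hK₂ he i).symm
  rw [e1] at h1
  have hint : Integrable (fun p : X × X => K₁ p.1 p.2 * K₂ p.2 p.1) (ν.prod ν) :=
    hK₁.integrable_mul (memLp_transpose379 hK₂)
  have e2 : ⟪hL.toLp _, (memLp_transpose379 hK₁).toLp (fun p : X × X => K₁ p.2 p.1)⟫_ℂ
      = ∫ x, ∫ z, K₁ x z * K₂ z x ∂ν ∂ν := by
    rw [inner_toLp379]
    have h2 := integral_prod_swap (μ := ν) (ν := ν)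
      (fun p : X × X => K₁ p.1 p.2 * K₂ p.2 p.1)
    have h3 := integral_prod _ hint
    rw [← h3, ← h2]
    congr 1
    funext p
    simp only [Complex.conj_conj, Prod.fst_swap, Prod.snd_swap]
  refine ⟨h1.summable, hint.integral_prod_left, ?_⟩
  rw [h1.tsum_eq, e2]

end Trace

/-! ## The leaf -/

open Fermat.Agent.LT.H556.A0 Fermat.Agent.LT.T5

attribute [local instance] Fermat.Agent.LT.T5.instMeasurableSpaceG

/-- **T5.01 (Spec v4).**  The trace of a product of two Hilbert–Schmidt kernel operators, computed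
in an orthogonal sequence (norm `1` or identically `0`) for which the range of the first operator
satisfies Parseval. -/
theorem leafAbstractTrace800 (K : Type) [Field K] [NumberField K] : LeafAbstractTrace K := by
  intro μ F hF K₁ K₂ e horth hnorm hcb hK₁ hK₂ hpar
  have : IsFiniteMeasure (μ.restrict F) :=
    ⟨by rw [Measure.restrict_apply_univ]; exact hF⟩
  have : BorelSpace (G K) := ⟨rfl⟩
  have he : ∀ i, MemLp (e i) 2 (μ.restrict F) := by
    intro i
    obtain ⟨hc, C, hC⟩ := hcb i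
    exact memLp_of_bdd379 hc.aestronglyMeasurable hC
  exact abstract_trace800 (ν := μ.restrict F) K₁ K₂ e hK₁ hK₂ he horth hnorm hpar

/-- The v3 statement (strictly orthonormal sequence) is a special case. -/
theorem leafAbstractTraceStrict800 (K : Type) [Field K] [NumberField K] :
    LeafAbstractTraceStrict K := by
  intro μ F hF K₁ K₂ e hon hcb hK₁ hK₂ hpar
  refine leafAbstractTrace800 K μ F hF K₁ K₂ e (fun i j hij => ?_) (fun i => Or.inl ?_)
    hcb hK₁ hK₂ hpar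
  · rw [hon i j, if_neg hij]
  · rw [hon i i, if_pos rfl]

end Fermat.Agent.LT.T5.H800
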