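import Mathlib
import Fermat.Agent.LT.T5.H40.HS0Core
import Fermat.Agent.LT.T5.H873.KerFin

/-!
# Row LT, tower T5, sub-leaf T5.02f2 `TorusCountC` (helper800), OFF-MAIN

`torusCountC_of800 : T1.AdeleLatticeC K → T1.AdNormC K → T5.H40.TorusCountC K`, the Prop of
`LT/T5/H40/HS0Core.lean` (helper40@08c177f1b, sha256 1e21981c997b) VERBATIM.

Proof.  `C = tsupport φ`, `Q = C C⁻¹` (compact).  If the triples `i = (a,b,m)`, `i' = (a',b',m')`
have non-zero terms `g, g'` for the same `x, y`, then `g' g⁻¹ = x⁻¹ n(u') δ n(u)⁻¹ x ∈ Q` with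
`δ = d(a'/a, b'/b) r^{m'-m}`; trace and determinant of `g' g⁻¹` are those of `δ`.  So
`j = i' / i` lies in
`Δ = {j | ∃ q ∈ Q, tr q = tr δ_j ∧ det q = det δ_j}`, which is FINITE and independent of `x, y`:
`‖det δ_j‖ = 2^k` bounds `k`; for fixed `k`, `r^k = c_k · 1`, `α + β ∈ c_k⁻¹ tr Q` and
`α β ∈ (det r^k)⁻¹ det Q` lie in compact sets, `K` is discrete in `𝔸_K`, and `α, β` are roots of
`X² - (α + β) X + α β`.
-/

set_option autoImplicit false

open IsDedekindDomain NumberField MeasureTheory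
open scoped MatrixGroups ComplexConjugate Pointwise

noncomputable section

namespace Fermat.Agent.LT.T5.H800

open Fermat.Agent.LT.H556.A0 Fermat.Agent.LT.T5 Fermat.Agent.LT.T5.H40

variable {K : Type} [Field K] [NumberField K]

/-! ## 1. `K` is discrete in `𝔸_K` -/

/-- Only finitely many elements of `K` lie in a compact subset of `𝔸_K`. -/
theorem finite_princ800 (hL : T1.AdeleLatticeC K) {Q : Set (Adl K)} (hQ : IsCompact Q) :
    {ξ : K | algebraMap K (Adl K) ξ ∈ Q}.Finite := by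
  obtain ⟨hdisc, hclosed, -⟩ := hL
  have hc : IsCompact ((T1.princ K : Set (Adl K)) ∩ Q) := hQ.inter_left hclosed
  have hd : DiscreteTopology ↥((T1.princ K : Set (Adl K)) ∩ Q) :=
    DiscreteTopology.of_subset hdisc Set.inter_subset_left
  have hfin : ((T1.princ K : Set (Adl K)) ∩ Q).Finite :=
    hc.finite (isDiscrete_iff_discreteTopology.mpr hd)
  have hpre : {ξ : K | algebraMap K (Adl K) ξ ∈ Q}
      = (algebraMap K (Adl K)) ⁻¹' ((T1.princ K : Set (Adl K)) ∩ Q) := by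
    ext ξ
    simp only [Set.mem_ofPred_eq, Set.mem_preimage, Set.mem_inter_iff, SetLike.mem_coe]
    constructor
    · intro h
      exact ⟨⟨ξ, rfl⟩, h⟩
    · intro h
      exact h.2
  rw [hpre]
  exact hfin.preimage (NumberField.AdeleRing.algebraMap_injective (𝓞 K) K).injOn

/-! ## 2. Trace and determinant -/

/-- The trace `GL₂(𝔸_K) → 𝔸_K`. -/
def trA800 (g : G K) : Adl K := Matrix.trace (g : Matrix (Fin 2) (Fin 2) (Adl K))

/-- The determinant `GL₂(𝔸_K) → 𝔸_K`. -/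
def detA800 (g : G K) : Adl K := Matrix.det (g : Matrix (Fin 2) (Fin 2) (Adl K))

theorem continuous_trA800 : Continuous (trA800 : G K → Adl K) :=
  Continuous.matrix_trace Units.continuous_val

theorem continuous_detA800 : Continuous (detA800 : G K → Adl K) :=
  Continuous.matrix_det Units.continuous_val

theorem detA800_mul (g h : G K) : detA800 (g * h) = detA800 g * detA800 h := by
  unfold detA800
  rw [Units.val_mul, Matrix.det_mul]

theorem detA800_eq (g : G K) :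
    detA800 g = ((Matrix.GeneralLinearGroup.det g : (Adl K)ˣ) : Adl K) := rfl

theorem detA800_mul_inv (g : G K) : detA800 g * detA800 g⁻¹ = 1 := by
  rw [← detA800_mul, mul_inv_cancel]
  unfold detA800
  rw [Units.val_one, Matrix.det_one]

theorem detA800_conj (x h : G K) : detA800 (x⁻¹ * h * x) = detA800 h := by
  rw [detA800_mul, detA800_mul]
  have := detA800_mul_inv x
  calc detA800 x⁻¹ * detA800 h * detA800 x
      = detA800 h * (detA800 x * detA800 x⁻¹) := by ring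
    _ = detA800 h := by rw [this, mul_one]

theorem trA800_conj (x h : G K) : trA800 (x⁻¹ * h * x) = trA800 h := by
  unfold trA800
  rw [Units.val_mul, Units.val_mul]
  exact Matrix.trace_units_conj' x _

theorem nd277_eq_detA800 (g : G K) : H277.nd277 g = T5.adNorm (detA800 g) := rfl

/-! ## 3. Unipotent elements -/

theorem unip_val800 (u : Adl K) :
    ((T3.unip K u : G K) : Matrix (Fin 2) (Fin 2) (Adl K)) = !![1, u; 0, 1] := rfl

theorem unip_inv_val800 (u : Adl K) :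
    (((T3.unip K u)⁻¹ : G K) : Matrix (Fin 2) (Fin 2) (Adl K)) = !![1, -u; 0, 1] := rfl

theorem detA800_unip (u : Adl K) : detA800 (T3.unip K u) = 1 := by
  unfold detA800
  rw [unip_val800, Matrix.det_fin_two_of]
  ring

theorem detA800_unip_inv (u : Adl K) : detA800 (T3.unip K u)⁻¹ = 1 := by
  unfold detA800
  rw [unip_inv_val800, Matrix.det_fin_two_of]
  ring

/-- Trace of `n(u') m n(u)⁻¹` for an upper triangular `m`. -/
theorem trA800_unip_mul (u u' : Adl K) (m : G K)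
    (hm : (m : Matrix (Fin 2) (Fin 2) (Adl K)) 1 0 = 0) :
    trA800 (T3.unip K u' * m * (T3.unip K u)⁻¹) = trA800 m := by
  unfold trA800
  rw [Units.val_mul, Units.val_mul, unip_val800, unip_inv_val800]
  simp only [Matrix.trace_fin_two, Matrix.mul_apply, Fin.sum_univ_two, Matrix.of_apply,
    Matrix.cons_val_zero, Matrix.cons_val_one, Matrix.cons_val', Matrix.cons_val_fin_one, hm]
  ring

theorem detA800_unip_mul (u u' : Adl K) (m : G K) :
    detA800 (T3.unip K u' * m * (T3.unip K u)⁻¹) = detA800 m := by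
  rw [detA800_mul, detA800_mul, detA800_unip, detA800_unip_inv, one_mul, mul_one]

/-- An element which commutes with `n(1)` is upper triangular with equal diagonal entries. -/
theorem entries_of_comm800 (z : G K) (hz : z * T3.unip K 1 = T3.unip K 1 * z) :
    (z : Matrix (Fin 2) (Fin 2) (Adl K)) 1 0 = 0 ∧
      (z : Matrix (Fin 2) (Fin 2) (Adl K)) 0 0 = (z : Matrix (Fin 2) (Fin 2) (Adl K)) 1 1 := by
  have h := congrArg (fun g : G K => (g : Matrix (Fin 2) (Fin 2) (Adl K))) hz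
  simp only [Units.val_mul, unip_val800] at h
  have h00 := congrFun (congrFun h 0) 0
  have h01 := congrFun (congrFun h 0) 1
  simp only [Matrix.mul_apply, Fin.sum_univ_two, Matrix.of_apply, Matrix.cons_val_zero,
    Matrix.cons_val_one, Matrix.cons_val', Matrix.cons_val_fin_one, mul_one, mul_zero,
    add_zero, one_mul] at h00 h01
  constructor
  · have : (z : Matrix (Fin 2) (Fin 2) (Adl K)) 0 0
        = (z : Matrix (Fin 2) (Fin 2) (Adl K)) 0 0 + (z : Matrix (Fin 2) (Fin 2) (Adl K)) 1 0 :=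
      h00
    exact (left_eq_add.mp this)
  · have h2 : (z : Matrix (Fin 2) (Fin 2) (Adl K)) 0 0 + (z : Matrix (Fin 2) (Fin 2) (Adl K)) 0 1
        = (z : Matrix (Fin 2) (Fin 2) (Adl K)) 0 1 + (z : Matrix (Fin 2) (Fin 2) (Adl K)) 1 1 :=
      h01
    rw [add_comm] at h2
    exact add_left_cancel h2

/-! ## 4. The torus elements `δ_j = d(α, β) r^k` -/

/-- `δ_j = d(α, β) r^k` for `j = (α, β, k)`. -/
def tor800 (r : G K) (j : Kˣ × Kˣ × ℤ) : G K := ratG (dRat K j.1 j.2.1) * r ^ j.2.2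

theorem ratG_dRat_val800 (a b : Kˣ) :
    ((ratG (dRat K a b) : G K) : Matrix (Fin 2) (Fin 2) (Adl K))
      = !![algebraMap K (Adl K) a, 0; 0, algebraMap K (Adl K) b] := by
  ext i j
  fin_cases i <;> fin_cases j <;> simp [ratG, dRat, Matrix.GeneralLinearGroup.map]

omit [NumberField K] in
theorem dRat_mul800 (a b a' b' : Kˣ) : dRat K (a * a') (b * b') = dRat K a b * dRat K a' b' := by
  apply Units.ext
  ext i j
  fin_cases i <;> fin_cases j <;> simp [dRat, Matrix.mul_apply, Fin.sum_univ_two]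

omit [NumberField K] in
theorem dRat_div800 (a b a' b' : Kˣ) :
    dRat K a' b' * (dRat K a b)⁻¹ = dRat K (a' / a) (b' / b) := by
  rw [mul_inv_eq_iff_eq_mul, ← dRat_mul800, div_mul_cancel, div_mul_cancel]

theorem zpow_comm_unip800 {r : G K} (hr : IsRayGen r) (k : ℤ) :
    r ^ k * T3.unip K 1 = T3.unip K 1 * r ^ k :=
  H277.ray_zpow_comm277 hr _ k

/-- `δ_j` is upper triangular. -/
theorem tor800_lower {r : G K} (hr : IsRayGen r) (j : Kˣ × Kˣ × ℤ) :
    (tor800 r j : Matrix (Fin 2) (Fin 2) (Adl K)) 1 0 = 0 := by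
  obtain ⟨h10, -⟩ := entries_of_comm800 (r ^ j.2.2) (zpow_comm_unip800 hr j.2.2)
  unfold tor800
  rw [Units.val_mul, ratG_dRat_val800]
  simp only [Matrix.mul_apply, Fin.sum_univ_two, Matrix.of_apply, Matrix.cons_val_zero,
    Matrix.cons_val_one, Matrix.cons_val', Matrix.cons_val_fin_one, h10]
  ring

/-- The trace of `δ_j` is `(α + β) c_k`, `c_k` the scalar of `r^k`. -/
theorem trA800_tor {r : G K} (hr : IsRayGen r) (j : Kˣ × Kˣ × ℤ) :
    trA800 (tor800 r j) = algebraMap K (Adl K) ((j.1 : K) + (j.2.1 : K))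
      * ((r ^ j.2.2 : G K) : Matrix (Fin 2) (Fin 2) (Adl K)) 0 0 := by
  obtain ⟨h10, h00⟩ := entries_of_comm800 (r ^ j.2.2) (zpow_comm_unip800 hr j.2.2)
  unfold tor800 trA800
  rw [Units.val_mul, ratG_dRat_val800]
  simp only [Matrix.trace_fin_two, Matrix.mul_apply, Fin.sum_univ_two, Matrix.of_apply,
    Matrix.cons_val_zero, Matrix.cons_val_one, Matrix.cons_val', Matrix.cons_val_fin_one, h10,
    ← h00, map_add]
  ring

/-- The determinant of `δ_j` is `α β det(r^k)`. -/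
theorem detA800_tor (r : G K) (j : Kˣ × Kˣ × ℤ) :
    detA800 (tor800 r j) = algebraMap K (Adl K) ((j.1 : K) * (j.2.1 : K))
      * detA800 (r ^ j.2.2) := by
  unfold tor800
  rw [detA800_mul]
  congr 1
  unfold detA800
  rw [ratG_dRat_val800, Matrix.det_fin_two_of, map_mul]
  ring

/-- The scalar of `r^k` is invertible. -/
theorem scalar_mul_inv800 {r : G K} (hr : IsRayGen r) (k : ℤ) :
    ((r ^ k : G K) : Matrix (Fin 2) (Fin 2) (Adl K)) 0 0
      * (((r ^ k : G K) : Matrix (Fin 2) (Fin 2) (Adl K)) 0 0 * detA800 (r ^ k)⁻¹) = 1 := by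
  obtain ⟨h10, h00⟩ := entries_of_comm800 (r ^ k) (zpow_comm_unip800 hr k)
  have hd : detA800 (r ^ k) = ((r ^ k : G K) : Matrix (Fin 2) (Fin 2) (Adl K)) 0 0
      * ((r ^ k : G K) : Matrix (Fin 2) (Fin 2) (Adl K)) 0 0 := by
    unfold detA800
    rw [Matrix.det_fin_two, h10, ← h00]
    ring
  rw [← mul_assoc, ← hd]
  exact detA800_mul_inv _

theorem nd277_tor800 (hN : T1.AdNormC K) {r : G K} (hr : IsRayGen r) (j : Kˣ × Kˣ × ℤ) :
    H277.nd277 (tor800 r j) = (2 : ℝ) ^ j.2.2 :=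
  H873.nd_lat873 hN hr (dRat K j.1 j.2.1, j.2.2)

/-! ## 5. The quotient of two non-zero terms -/

/-- The term of the triple `i` at `(x, y, u)`. -/
def term800 (r x y : G K) (u : Adl K) (i : Kˣ × Kˣ × ℤ) : G K :=
  x⁻¹ * T3.unip K u * ratG (dRat K i.1 i.2.1) * y * r ^ i.2.2

/-- `g' g⁻¹ = x⁻¹ (n(u') δ n(u)⁻¹) x` with `δ = d(a'/a, b'/b) r^{m'-m}`. -/
theorem term_mul_inv800 {r : G K} (hr : IsRayGen r) (x y : G K) (u u' : Adl K)
    (i i' : Kˣ × Kˣ × ℤ) :
    term800 r x y u' i' * (term800 r x y u i)⁻¹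
      = x⁻¹ * (T3.unip K u' * tor800 r (i'.1 / i.1, i'.2.1 / i.2.1, i'.2.2 - i.2.2)
          * (T3.unip K u)⁻¹) * x := by
  have hZ : ∀ g : G K, r ^ (i'.2.2 - i.2.2) * g = g * r ^ (i'.2.2 - i.2.2) :=
    fun g => H277.ray_zpow_comm277 hr g _
  have e1 : y * r ^ i'.2.2 * (y * r ^ i.2.2)⁻¹ = r ^ (i'.2.2 - i.2.2) := by
    rw [mul_inv_rev, ← mul_assoc, mul_assoc y, ← zpow_sub, ← hZ y, mul_assoc, mul_inv_cancel,
      mul_one]
  unfold term800 tor800
  simp only []
  rw [← dRat_div800, map_mul, map_inv]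
  calc x⁻¹ * T3.unip K u' * ratG (dRat K i'.1 i'.2.1) * y * r ^ i'.2.2
        * (x⁻¹ * T3.unip K u * ratG (dRat K i.1 i.2.1) * y * r ^ i.2.2)⁻¹
      = x⁻¹ * T3.unip K u' * ratG (dRat K i'.1 i'.2.1) * (y * r ^ i'.2.2 * (y * r ^ i.2.2)⁻¹)
          * (ratG (dRat K i.1 i.2.1))⁻¹ * (T3.unip K u)⁻¹ * x := by group
    _ = x⁻¹ * T3.unip K u' * ratG (dRat K i'.1 i'.2.1) * r ^ (i'.2.2 - i.2.2)
          * (ratG (dRat K i.1 i.2.1))⁻¹ * (T3.unip K u)⁻¹ * x := by rw [e1]
    _ = x⁻¹ * T3.unip K u' * ratG (dRat K i'.1 i'.2.1)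
          * ((ratG (dRat K i.1 i.2.1))⁻¹ * r ^ (i'.2.2 - i.2.2)) * (T3.unip K u)⁻¹ * x := by
        rw [← hZ (ratG (dRat K i.1 i.2.1))⁻¹]
        group
    _ = x⁻¹ * (T3.unip K u' * (ratG (dRat K i'.1 i'.2.1) * (ratG (dRat K i.1 i.2.1))⁻¹
          * r ^ (i'.2.2 - i.2.2)) * (T3.unip K u)⁻¹) * x := by group

/-! ## 6. The finite set of quotients -/

omit [NumberField K] in
/-- A quadratic equation has finitely many roots. -/
theorem finite_quad800 (s p : K) : {a : K | a * a - s * a + p = 0}.Finite := by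
  rcases Set.eq_empty_or_nonempty {a : K | a * a - s * a + p = 0} with h | ⟨a₀, ha₀⟩
  · rw [h]
    exact Set.finite_empty
  · refine (Set.toFinite {a₀, s - a₀}).subset ?_
    intro a ha
    have h1 : a * a - s * a + p = 0 := ha
    have h2 : a₀ * a₀ - s * a₀ + p = 0 := ha₀
    have h3 : (a - a₀) * (a - (s - a₀)) = 0 := by linear_combination h1 - h2
    rcases mul_eq_zero.mp h3 with h | h
    · left
      exact sub_eq_zero.mp h
    · right
      exact sub_eq_zero.mp h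

/-- The triples `j = (α, β, k)` such that `δ_j` has the trace and the determinant of an element
of `Q`. -/
def quot800 (r : G K) (Q : Set (G K)) : Set (Kˣ × Kˣ × ℤ) :=
  {j | ∃ q ∈ Q, trA800 q = trA800 (tor800 r j) ∧ detA800 q = detA800 (tor800 r j)}

/-- The units of `K` which are roots of `X² - s X + p`, `s ∈ F₁`, `p ∈ F₂`. -/
def roots800 (F₁ F₂ : Set K) : Set Kˣ :=
  {a | ∃ s ∈ F₁, ∃ p ∈ F₂, (a : K) * (a : K) - s * (a : K) + p = 0}

omit [NumberField K] in
theorem finite_roots800 {F₁ F₂ : Set K} (h₁ : F₁.Finite) (h₂ : F₂.Finite) :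
    (roots800 F₁ F₂).Finite := by
  have hfin : (⋃ s ∈ F₁, ⋃ p ∈ F₂, {a : K | a * a - s * a + p = 0}).Finite :=
    h₁.biUnion fun s _ => h₂.biUnion fun p _ => finite_quad800 s p
  refine (hfin.preimage (Units.val_injective (α := K)).injOn).subset ?_
  rintro a ⟨s, hs, p, hp, h⟩
  simp only [Set.mem_preimage, Set.mem_iUnion, Set.mem_ofPred_eq, exists_prop]
  exact ⟨s, hs, p, hp, h⟩

/-- The slice of `quot800` at `k` is contained in `roots × roots`. -/
theorem quot_slice800 {r : G K} (hr : IsRayGen r) (Q : Set (G K)) (k : ℤ)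
    {j : Kˣ × Kˣ × ℤ} (hj : j ∈ quot800 r Q) (hk : j.2.2 = k) :
    j.1 ∈ roots800
        {ξ : K | algebraMap K (Adl K) ξ ∈ (fun q : G K => trA800 q
          * (((r ^ k : G K) : Matrix (Fin 2) (Fin 2) (Adl K)) 0 0 * detA800 (r ^ k)⁻¹)) '' Q}
        {ξ : K | algebraMap K (Adl K) ξ ∈ (fun q : G K => detA800 q * detA800 (r ^ k)⁻¹) '' Q} ∧
      j.2.1 ∈ roots800
        {ξ : K | algebraMap K (Adl K) ξ ∈ (fun q : G K => trA800 q
          * (((r ^ k : G K) : Matrix (Fin 2) (Fin 2) (Adl K)) 0 0 * detA800 (r ^ k)⁻¹)) '' Q}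
        {ξ : K | algebraMap K (Adl K) ξ ∈ (fun q : G K => detA800 q * detA800 (r ^ k)⁻¹) '' Q} := by
  obtain ⟨q, hq, htr, hdet⟩ := hj
  subst hk
  have hs : algebraMap K (Adl K) ((j.1 : K) + (j.2.1 : K)) = trA800 q
      * (((r ^ j.2.2 : G K) : Matrix (Fin 2) (Fin 2) (Adl K)) 0 0 * detA800 (r ^ j.2.2)⁻¹) := by
    rw [htr, trA800_tor hr j, mul_assoc, scalar_mul_inv800 hr, mul_one]
  have hp : algebraMap K (Adl K) ((j.1 : K) * (j.2.1 : K))
      = detA800 q * detA800 (r ^ j.2.2)⁻¹ := by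
    rw [hdet, detA800_tor r j, mul_assoc, detA800_mul_inv, mul_one]
  have hs' : ((j.1 : K) + (j.2.1 : K)) ∈ {ξ : K | algebraMap K (Adl K) ξ ∈
      (fun q : G K => trA800 q * (((r ^ j.2.2 : G K) : Matrix (Fin 2) (Fin 2) (Adl K)) 0 0
        * detA800 (r ^ j.2.2)⁻¹)) '' Q} := ⟨q, hq, hs.symm⟩
  have hp' : ((j.1 : K) * (j.2.1 : K)) ∈ {ξ : K | algebraMap K (Adl K) ξ ∈
      (fun q : G K => detA800 q * detA800 (r ^ j.2.2)⁻¹) '' Q} := ⟨q, hq, hp.symm⟩
  exact ⟨⟨_, hs', _, hp', by ring⟩, ⟨_, hs', _, hp', by ring⟩⟩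

/-- **The set of quotients is finite.** -/
theorem finite_quot800 (hL : T1.AdeleLatticeC K) (hN : T1.AdNormC K) {r : G K}
    (hr : IsRayGen r) {Q : Set (G K)} (hQ : IsCompact Q) : (quot800 r Q).Finite := by
  rcases Q.eq_empty_or_nonempty with rfl | hne
  · have : quot800 r (∅ : Set (G K)) = ∅ := by
      ext j
      simp [quot800]
    rw [this]
    exact Set.finite_empty
  have hcont := H873.continuous_nd873 (K := K) hN
  obtain ⟨g₀, hg₀, hmin⟩ := hQ.exists_isMinOn hne hcont.continuousOn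
  obtain ⟨g₁, hg₁, hmax⟩ := hQ.exists_isMaxOn hne hcont.continuousOn
  have ha : 0 < H277.nd277 g₀ := H277.nd277_pos hN g₀
  have hb : 0 < H277.nd277 g₁ := H277.nd277_pos hN g₁
  have hM : (Set.Icc (Int.clog 2 (H277.nd277 g₀)) (Int.log 2 (H277.nd277 g₁))).Finite :=
    Set.finite_Icc _ _
  -- the slices
  have hslice : ∀ k : ℤ, (roots800
        {ξ : K | algebraMap K (Adl K) ξ ∈ (fun q : G K => trA800 q
          * (((r ^ k : G K) : Matrix (Fin 2) (Fin 2) (Adl K)) 0 0 * detA800 (r ^ k)⁻¹)) '' Q}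
        {ξ : K | algebraMap K (Adl K) ξ ∈
          (fun q : G K => detA800 q * detA800 (r ^ k)⁻¹) '' Q}).Finite := by
    intro k
    refine finite_roots800 (finite_princ800 hL ?_) (finite_princ800 hL ?_)
    · exact hQ.image (continuous_trA800.mul continuous_const)
    · exact hQ.image (continuous_detA800.mul continuous_const)
  refine (Set.Finite.biUnion hM (fun k _ =>
    (hslice k).prod ((hslice k).prod (Set.finite_singleton k)))).subset ?_
  intro j hj
  obtain ⟨q, hq, htr, hdet⟩ := hj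
  have h2 : H277.nd277 q = (2 : ℝ) ^ j.2.2 := by
    rw [nd277_eq_detA800, hdet, ← nd277_eq_detA800, nd277_tor800 hN hr]
  have hlo : H277.nd277 g₀ ≤ ((2 : ℕ) : ℝ) ^ j.2.2 := by
    have := hmin hq
    simp only [Set.mem_ofPred_eq] at this
    rw [h2] at this
    exact_mod_cast this
  have hhi : ((2 : ℕ) : ℝ) ^ j.2.2 ≤ H277.nd277 g₁ := by
    have := hmax hq
    simp only [Set.mem_ofPred_eq] at this
    rw [h2] at this
    exact_mod_cast this
  have h3 : Int.clog 2 (H277.nd277 g₀) ≤ j.2.2 :=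
    (Int.le_zpow_iff_clog_le (by norm_num) ha).mp hlo
  have h4 : j.2.2 ≤ Int.log 2 (H277.nd277 g₁) :=
    (Int.zpow_le_iff_le_log (by norm_num) hb).mp hhi
  obtain ⟨hα, hβ⟩ := quot_slice800 hr Q j.2.2 ⟨q, hq, htr, hdet⟩ rfl
  simp only [Set.mem_iUnion, Set.mem_prod, Set.mem_singleton_iff, Set.mem_Icc, exists_prop]
  exact ⟨j.2.2, ⟨h3, h4⟩, hα, hβ, rfl⟩

/-! ## 7. The leaf -/

/-- **Sub-leaf T5.02f2 `TorusCountC`** (tower T5, cut of helper40). -/
theorem torusCountC_of800 (hL : T1.AdeleLatticeC K) (hN : T1.AdNormC K) : TorusCountC K := by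
  intro r hr φ _ hφs
  classical
  -- the compact set `Q = C C⁻¹`
  have hC : IsCompact (tsupport φ) := hφs
  have hQ : IsCompact ((fun p : G K × G K => p.1 * p.2⁻¹) '' (tsupport φ ×ˢ tsupport φ)) :=
    (hC.prod hC).image (continuous_fst.mul continuous_snd.inv)
  set Q : Set (G K) := (fun p : G K × G K => p.1 * p.2⁻¹) '' (tsupport φ ×ˢ tsupport φ)
    with hQdef
  have hΔ : (quot800 r Q).Finite := finite_quot800 hL hN hr hQ
  have key : ∀ (x y : G K) (i i' : Kˣ × Kˣ × ℤ) (u u' : Adl K),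
      φ (term800 r x y u i) ≠ 0 → φ (term800 r x y u' i') ≠ 0 →
        (i'.1 / i.1, i'.2.1 / i.2.1, i'.2.2 - i.2.2) ∈ quot800 r Q := by
    intro x y i i' u u' h h'
    have hg : term800 r x y u i ∈ tsupport φ := subset_tsupport φ h
    have hg' : term800 r x y u' i' ∈ tsupport φ := subset_tsupport φ h'
    refine ⟨term800 r x y u' i' * (term800 r x y u i)⁻¹, ⟨(_, _), ⟨hg', hg⟩, rfl⟩, ?_, ?_⟩
    · rw [term_mul_inv800 hr, trA800_conj, trA800_unip_mul _ _ _ (tor800_lower hr _)]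
    · rw [term_mul_inv800 hr, detA800_conj, detA800_unip_mul]
  refine ⟨hΔ.toFinset.card, fun x y => ?_⟩
  by_cases hI : ∃ (i : Kˣ × Kˣ × ℤ) (u : Adl K), φ (term800 r x y u i) ≠ 0
  · obtain ⟨i₀, u₀, h₀⟩ := hI
    refine ⟨hΔ.toFinset.image (fun j : Kˣ × Kˣ × ℤ => (j.1 * i₀.1, j.2.1 * i₀.2.1,
      j.2.2 + i₀.2.2)), Finset.card_image_le, fun i hi u => ?_⟩
    by_contra hne
    apply hi
    rw [Finset.mem_image]
    refine ⟨(i.1 / i₀.1, i.2.1 / i₀.2.1, i.2.2 - i₀.2.2), ?_, ?_⟩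
    · rw [Set.Finite.mem_toFinset]
      exact key x y i₀ i u₀ u h₀ hne
    · simp only [div_mul_cancel, sub_add_cancel]
  · refine ⟨∅, by simp, fun i _ u => ?_⟩
    by_contra hne
    exact hI ⟨i, u, hne⟩

/-- The same from the output of tower T1. -/
theorem torusCountC_of_T1Out800 (h : T1.T1Out K) : TorusCountC K :=
  torusCountC_of800 h.adeleLattice h.adNorm

end Fermat.Agent.LT.T5.H800

end
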